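import Fermat.Agent.S27.Up.Small

/-!
# S19 / DIV : `Pic0` of a function field over an algebraically closed subfield of `ℂ` is divisible

1. Over `ℂ`: `S27.exists_exp` + `S27.exists_bound` give a surjective homomorphism
   `φ : (Fin g → ℂ) →+ Pic0 ℂ F`; `ℂ^g` is divisible.
2. Descent (copy of `S27/BC/LPic.lean`, `rational_of_mem_redTorsion`, `mem_ratTorsion_of_finite`):
   `x : Pic0 k F₀`, `z : Pic0 ℂ F` with `n • z = extPic x`.  The set `{z | n • z = extPic x}` is
   finite (a coset of the `n`-torsion, finite by `card_torsion_complex`) and stable under all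
   `BCAut`; so the reduced representatives (`S27/MinRep`) of its elements form a finite set of
   divisors permuted by `BCAut`, their points have finite orbits, so they are rational
   (`rational_of_val`, `mem_range_of_finite_orbit`), so `z = extPic y`; `extPic` is injective and
   additive, so `n • y = x`.
-/

set_option autoImplicit false

open AlgebraicCurve

namespace Fermat.Agent.S19

open Fermat.Agent.S27

theorem pic0_divisible_complex {F : Type*} [Field F] [Algebra ℂ F] [IsFF ℂ F] (n : ℕ) (hn : 0 < n)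
    (x : Pic0 ℂ F) : ∃ y : Pic0 ℂ F, n • y = x := by
  obtain ⟨b, hb⟩ : ∃ b : Fin (genusFF ℂ F) → WD ℂ F, LinearIndependent ℂ b :=
    exists_linearIndependent_of_le_finrank (finrank_WD (K := ℂ) (F := F)).ge
  obtain ⟨φ, -, hφ⟩ := exists_exp rfl b hb
  obtain ⟨C, hC⟩ := exists_bound rfl b φ hφ
  obtain ⟨u, -, rfl⟩ := hC x
  refine ⟨φ ((n : ℂ)⁻¹ • u), ?_⟩
  rw [← map_nsmul]
  congr 1
  have hn0 : (n : ℂ) ≠ 0 := by exact_mod_cast hn.ne'
  rw [← Nat.cast_smul_eq_nsmul ℂ, smul_smul, mul_inv_cancel₀ hn0, one_smul]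

section Descent

variable {k K F₀ F : Type*} [Field k] [Field K] [Field F₀] [Field F]
  [Algebra k K] [Algebra k F₀] [Algebra K F] [Algebra F₀ F] [Algebra k F]
  [IsScalarTower k K F] [IsScalarTower k F₀ F]
  [IsAlgClosed k] [CharZero k] [IsAlgClosed K] [CharZero K] [IsFF k F₀] [IsFF K F]
  [IsBC k K F₀ F]

/-- the reduced divisors whose class `z` satisfies `n • z = X`. -/
def redCoset (P₀ : Place K F) (n : ℕ) (X : Pic0 K F) : Set (Divisor K F) :=
  {E | IsRed P₀ E ∧ n • bcl P₀ E = X}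

omit [IsAlgClosed k] [CharZero k] [IsFF k F₀] [IsBC k K F₀ F] [Algebra k K] [Algebra k F₀]
  [Algebra F₀ F] [Algebra k F] [IsScalarTower k K F] [IsScalarTower k F₀ F] in
theorem finite_redCoset (P₀ : Place K F) (n : ℕ) (X : Pic0 K F)
    (hfin : Finite (Pic0.torsion K F n)) : (redCoset P₀ n X).Finite := by
  have hfin' : {x : Pic0 K F | n • x = 0}.Finite := by
    have : {x : Pic0 K F | n • x = 0} = (Pic0.torsion K F n : Set (Pic0 K F)) := by
      ext x
      simp only [Set.mem_ofPred_eq, SetLike.mem_coe, Pic0.mem_torsion, natCast_zsmul]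
    rw [this]
    exact Set.toFinite _
  have hfin'' : {x : Pic0 K F | n • x = X}.Finite := by
    rcases Set.eq_empty_or_nonempty {x : Pic0 K F | n • x = X} with h | ⟨z, hz⟩
    · rw [h]; exact Set.finite_empty
    · apply Set.Finite.of_finite_image (f := fun x => x - z)
      · refine hfin'.subset ?_
        rintro _ ⟨x, hx, rfl⟩
        show n • (x - z) = 0
        rw [nsmul_sub, show n • x = X from hx, show n • z = X from hz, sub_self]
      · intro a _ b _ h
        exact sub_left_injective h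
  apply Set.Finite.of_finite_image (f := bcl P₀)
  · exact hfin''.subset (by rintro _ ⟨E, hE, rfl⟩; exact hE.2)
  · intro E hE E' hE' h
    exact hE.1.eq_of_bcl_eq hE'.1 h

/-- reduced divisors in the coset of a rational class are permuted. -/
theorem dv_mem_redCoset (A : BCAut k K F₀ F) {P₀ : Place K F} (hP₀ : A.pl P₀ = P₀) {n : ℕ}
    {D₀ : Divisor k F₀} (hD₀ : Divisor.degree D₀ = 0) {E : Divisor K F}
    (hE : E ∈ redCoset P₀ n (dcl (extDiv K F D₀))) :
    A.dv E ∈ redCoset P₀ n (dcl (extDiv K F D₀)) := by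
  obtain ⟨⟨h1, h2⟩, h3⟩ := hE
  have hD₀' : Divisor.degree (extDiv K F D₀) = 0 := by rw [degree_extDiv, hD₀]
  refine ⟨⟨A.dv_nonneg h1, ?_⟩, ?_⟩
  · rw [← hP₀, ← A.dv_single, ← A.dv_sub, A.finrank_L_dv, h2]
  · unfold bcl at h3 ⊢
    have hd := degree_sub_smul P₀ E
    have hnd : Divisor.degree (n • (E - Divisor.degree E • Finsupp.single P₀ 1)) = 0 := by
      rw [map_nsmul, hd, smul_zero]
    rw [← dcl_nsmul hd, ← sub_eq_zero, ← dcl_sub hnd hD₀',
      dcl_eq_zero_iff (by rw [map_sub, hnd, hD₀', sub_zero])] at h3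
    have h4 := A.dv_principal h3
    rw [A.dv_sub, A.dv_nsmul, A.dv_sub, A.dv_zsmul, A.dv_single, hP₀, ← A.degree_dv E,
      A.dv_extDiv] at h4
    have hd' := degree_sub_smul P₀ (A.dv E)
    have hnd' : Divisor.degree (n • (A.dv E - Divisor.degree (A.dv E) • Finsupp.single P₀ 1))
        = 0 := by
      rw [map_nsmul, hd', smul_zero]
    rw [← dcl_nsmul hd', ← sub_eq_zero, ← dcl_sub hnd' hD₀',
      dcl_eq_zero_iff (by rw [map_sub, hnd', hD₀', sub_zero])]
    exact h4

/-- the points of a reduced divisor in the coset of a rational class are rational. -/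
theorem rational_of_mem_redCoset (v₀ : Place k F₀) (n : ℕ) (hfin : Finite (Pic0.torsion K F n))
    {D₀ : Divisor k F₀} (hD₀ : Divisor.degree D₀ = 0)
    {E : Divisor K F} (hE : E ∈ redCoset (extPlace K F v₀) n (dcl (extDiv K F D₀)))
    {R : Place K F} (hR : R ∈ E.support) : ∃ v : Place k F₀, R = extPlace K F v := by
  classical
  obtain ⟨x, hx⟩ := exists_nonconst k F₀
  apply rational_of_val R hx
  by_cases hpole : R.adicValuation (algebraMap F₀ F x) ≤ 1
  swap
  · exact Or.inl hpole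
  right
  apply mem_range_of_finite_orbit
  have hT := finite_redCoset (extPlace K F v₀) n (dcl (extDiv K F D₀)) hfin
  have hT2 : (⋃ E' ∈ redCoset (extPlace K F v₀) n (dcl (extDiv K F D₀)),
      ((E'.support : Set (Place K F)))).Finite :=
    hT.biUnion fun E' _ => E'.support.finite_toSet
  apply (hT2.image fun R' => val R' (algebraMap F₀ F x)).subset
  rintro _ ⟨σ, rfl⟩
  obtain ⟨A, rfl⟩ := exists_bcAut (F₀ := F₀) (F := F) σ
  refine ⟨A.pl R, ?_, ?_⟩
  · exact Set.mem_biUnion (dv_mem_redCoset A (A.pl_extPlace v₀) hD₀ hE) (A.pl_mem_support_dv hR)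
  · show val (A.pl R) (algebraMap F₀ F x) = A.σ (val R (algebraMap F₀ F x))
    rw [← A.val_pl, A.map_F₀]

variable (K F) in
/-- divisibility descends. -/
theorem divisible_descent (n : ℕ) (hfin : Finite (Pic0.torsion K F n))
    (hdiv : ∀ X : Pic0 K F, ∃ z : Pic0 K F, n • z = X) (x : Pic0 k F₀) :
    ∃ y : Pic0 k F₀, n • y = x := by
  have : Infinite (Place k F₀) := infinite_places k F₀
  obtain ⟨v₀⟩ : Nonempty (Place k F₀) := inferInstance
  obtain ⟨D₀, hD₀, rfl⟩ := dcl_surjective x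
  obtain ⟨z, hz⟩ := hdiv (dcl (extDiv K F D₀))
  obtain ⟨E, hE, rfl⟩ := exists_isRed (extPlace K F v₀) z
  obtain ⟨E₀, rfl⟩ := exists_eq_extDiv (k := k) (F₀ := F₀) E fun R hR =>
    rational_of_mem_redCoset v₀ n hfin hD₀ ⟨hE, hz⟩ hR
  have hd := degree_sub_smul v₀ E₀
  refine ⟨dcl (E₀ - Divisor.degree E₀ • Finsupp.single v₀ 1), ?_⟩
  have hb : bcl (extPlace K F v₀) (extDiv K F E₀)
      = dcl (extDiv K F (E₀ - Divisor.degree E₀ • Finsupp.single v₀ 1)) := by
    unfold bcl
    congr 1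
    rw [extDiv_sub, degree_extDiv]
    congr 1
    unfold extDiv
    rw [Finsupp.smul_single, Finsupp.smul_single, Finsupp.mapDomain_single]
  rw [hb, ← dcl_nsmul (by rw [degree_extDiv, hd]), ← extDiv_nsmul,
    dcl_extDiv_eq_iff (by rw [map_nsmul, hd, smul_zero]) hD₀, dcl_nsmul hd] at hz
  exact hz

end Descent

theorem pic0_divisible_aux (k F₀ : Type*) [Field k] [IsAlgClosed k] [CharZero k] [Field F₀]
    [Algebra k F₀] [IsFF k F₀] [Algebra k ℂ] (n : ℕ) (hn : 0 < n) (x : Pic0 k F₀) :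
    ∃ y : Pic0 k F₀, n • y = x := by
  have h1 : Nat.card (Pic0.torsion ℂ (BCField k ℂ F₀) n) = n ^ (2 * genusFF ℂ (BCField k ℂ F₀)) :=
    card_torsion_complex n hn
  have hfin : Finite (Pic0.torsion ℂ (BCField k ℂ F₀) n) := by
    apply Nat.finite_of_card_ne_zero
    rw [h1]
    exact (pow_pos hn _).ne'
  exact divisible_descent ℂ (BCField k ℂ F₀) n hfin (pic0_divisible_complex n hn) x

theorem pic0_divisible (k F₀ : Type*) [Field k] [IsAlgClosed k] [CharZero k] [Field F₀]
    [Algebra k F₀] [IsFF k F₀] (hk : Nonempty (k →+* ℂ)) (n : ℕ) (hn : 0 < n) (x : Pic0 k F₀) :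
    ∃ y : Pic0 k F₀, n • y = x := by
  obtain ⟨φ⟩ := hk
  let _ : Algebra k ℂ := φ.toAlgebra
  exact pic0_divisible_aux k F₀ n hn x

end Fermat.Agent.S19
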