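import Mathlib

/-!
# S19 / [A-HOPF] : a lattice of functions on a finite abelian group which is closed under the group
law is a Hopf algebra with the expected points

`X` a finite abelian group, `Ω` a field, `R → Ω` injective, `H` an `R`-subalgebra of `X → Ω` which
is `R`-free on a family `b` that is an `Ω`-basis of `X → Ω`.  If `H` is stable under
`h ↦ h (x + y)` (in the sense of tensors), `h ↦ h (-x)` and `h 0 ∈ R`, then `H` is a commutative
cocommutative Hopf algebra over `R`, finite free, and `Hom_{R-alg}(H, Ω) = X` (convolution = `+`).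
-/

set_option autoImplicit false
set_option linter.unusedSectionVars false

open TensorProduct

namespace Fermat.Agent.S19.HopfOrder

section Pull

variable (R Ω : Type*) [CommRing R] [Field Ω] [Algebra R Ω]

/-- Precomposition with a map, as an algebra homomorphism. -/
def pull {Y Z : Type*} (φ : Z → Y) : (Y → Ω) →ₐ[R] (Z → Ω) :=
  AlgHom.pi (fun z => Pi.evalAlgHom R (fun _ : Y => Ω) (φ z))

@[simp] theorem pull_apply {Y Z : Type*} (φ : Z → Y) (f : Y → Ω) (z : Z) :
    pull R Ω φ f z = f (φ z) := rfl

end Pull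

/-- Products of two linearly independent families of functions are linearly independent. -/
theorem linearIndependent_prod_fun {Ω Y Z ι κ : Type*} [Field Ω]
    {u : ι → Y → Ω} {v : κ → Z → Ω} (hu : LinearIndependent Ω u) (hv : LinearIndependent Ω v) :
    LinearIndependent Ω (fun p : ι × κ => fun z : Y × Z => u p.1 z.1 * v p.2 z.2) := by
  classical
  rw [linearIndependent_iff'] at hu hv ⊢
  intro s c hc p hp
  -- enlarge to a product
  set s₁ := s.image Prod.fst
  set s₂ := s.image Prod.snd
  let c' : ι × κ → Ω := fun q => if q ∈ s then c q else 0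
  have hsub : s ⊆ s₁ ×ˢ s₂ := fun q hq =>
    Finset.mem_product.mpr ⟨Finset.mem_image_of_mem _ hq, Finset.mem_image_of_mem _ hq⟩
  have hc' : ∑ q ∈ s₁ ×ˢ s₂, c' q • (fun z : Y × Z => u q.1 z.1 * v q.2 z.2) = 0 := by
    rw [← hc]
    symm
    refine Finset.sum_subset_zero_on_sdiff hsub ?_ ?_
    · intro q hq
      have : q ∉ s := (Finset.mem_sdiff.mp hq).2
      simp [c', this]
    · intro q hq
      simp [c', hq]
  have key : ∀ z : Z, ∀ i ∈ s₁, ∑ k ∈ s₂, c' (i, k) * v k z = 0 := by
    intro z
    apply hu s₁ (fun i => ∑ k ∈ s₂, c' (i, k) * v k z)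
    funext y
    have := congrFun hc' (y, z)
    rw [Finset.sum_product] at this
    simp only [Finset.sum_apply, Pi.smul_apply, smul_eq_mul, Pi.zero_apply] at this ⊢
    rw [← this]
    refine Finset.sum_congr rfl fun i _ => ?_
    rw [Finset.sum_mul]
    refine Finset.sum_congr rfl fun k _ => ?_
    ring
  have key2 : ∀ i ∈ s₁, ∀ k ∈ s₂, c' (i, k) = 0 := by
    intro i hi
    apply hv s₂ (fun k => c' (i, k))
    funext z
    have := key z i hi
    simpa [Finset.sum_apply] using this
  have := key2 p.1 (Finset.mem_image_of_mem _ hp) p.2 (Finset.mem_image_of_mem _ hp)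
  simpa [c', hp] using this


/-- A linear map sending a basis to a linearly independent family is injective. -/
theorem injective_of_basis {R M N ι : Type*} [CommSemiring R] [AddCommMonoid M] [Module R M]
    [AddCommMonoid N] [Module R N] (B : Module.Basis ι R M) (f : M →ₗ[R] N)
    (h : LinearIndependent R (fun i => f (B i))) : Function.Injective f := by
  have h1 : ∀ m, f m = Finsupp.linearCombination R (fun i => f (B i)) (B.repr m) := by
    intro m
    conv_lhs => rw [← B.linearCombination_repr m]
    rw [Finsupp.apply_linearCombination]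
    rfl
  intro m m' hmm
  rw [h1, h1] at hmm
  exact B.repr.injective (h hmm)

section Main

variable {R Ω X : Type*} [CommRing R] [Field Ω] [Algebra R Ω] [AddCommGroup X]
  (H : Subalgebra R (X → Ω))

/-- `H ⊗ H → functions on X × X`. -/
noncomputable def iota2 : H ⊗[R] H →ₐ[R] (X × X → Ω) :=
  Algebra.TensorProduct.lift ((pull R Ω Prod.fst).comp H.val) ((pull R Ω Prod.snd).comp H.val)
    (fun _ _ => Commute.all _ _)

@[simp] theorem iota2_tmul (a c : H) (z : X × X) :
    iota2 H (a ⊗ₜ[R] c) z = (a : X → Ω) z.1 * (c : X → Ω) z.2 := by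
  simp [iota2]

/-- `H ⊗ (H ⊗ H) → functions on X × (X × X)`. -/
noncomputable def iota3 : H ⊗[R] (H ⊗[R] H) →ₐ[R] (X × (X × X) → Ω) :=
  Algebra.TensorProduct.lift ((pull R Ω Prod.fst).comp H.val) ((pull R Ω Prod.snd).comp (iota2 H))
    (fun _ _ => Commute.all _ _)

@[simp] theorem iota3_tmul (a : H) (t : H ⊗[R] H) (z : X × (X × X)) :
    iota3 H (a ⊗ₜ[R] t) z = (a : X → Ω) z.1 * iota2 H t z.2 := by
  simp [iota3]

variable {H}

theorem iota2_injective {ι : Type*} (B : Module.Basis ι R H)
    (hinj : Function.Injective (algebraMap R Ω))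
    (hli : LinearIndependent Ω (fun i => ((B i : H) : X → Ω))) :
    Function.Injective (iota2 H) := by
  have h1 := linearIndependent_prod_fun hli hli
  have h2 : LinearIndependent R
      (fun p : ι × ι => fun z : X × X => ((B p.1 : H) : X → Ω) z.1 * ((B p.2 : H) : X → Ω) z.2) :=
    h1.restrict_scalars (by simpa [Algebra.smul_def] using hinj)
  refine injective_of_basis (B.tensorProduct B) (iota2 H).toLinearMap ?_
  have h3 : (fun p => (iota2 H).toLinearMap ((B.tensorProduct B) p)) =
      (fun p : ι × ι => fun z : X × X =>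
        ((B p.1 : H) : X → Ω) z.1 * ((B p.2 : H) : X → Ω) z.2) := by
    funext p z
    rw [Module.Basis.tensorProduct_apply]
    exact iota2_tmul H _ _ z
  rw [h3]
  exact h2

theorem iota3_injective {ι : Type*} (B : Module.Basis ι R H)
    (hinj : Function.Injective (algebraMap R Ω))
    (hli : LinearIndependent Ω (fun i => ((B i : H) : X → Ω))) :
    Function.Injective (iota3 H) := by
  have h1 := linearIndependent_prod_fun hli (linearIndependent_prod_fun hli hli)
  have h2 := h1.restrict_scalars (R := R) (by simpa [Algebra.smul_def] using hinj)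
  refine injective_of_basis (B.tensorProduct (B.tensorProduct B)) (iota3 H).toLinearMap ?_
  have h3 : (fun p => (iota3 H).toLinearMap ((B.tensorProduct (B.tensorProduct B)) p)) =
      (fun p : ι × (ι × ι) => fun z : X × (X × X) =>
        ((B p.1 : H) : X → Ω) z.1 *
          (((B p.2.1 : H) : X → Ω) z.2.1 * ((B p.2.2 : H) : X → Ω) z.2.2)) := by
    funext p z
    rw [Module.Basis.tensorProduct_apply, Module.Basis.tensorProduct_apply]
    exact (iota3_tmul H _ _ z).trans (by rw [iota2_tmul])
  rw [h3]
  exact h2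

variable (H) in
/-- The closure properties making `H` a Hopf algebra. -/
structure IsHopfLattice : Prop where
  inj : Function.Injective (algebraMap R Ω)
  inj2 : Function.Injective (iota2 H)
  inj3 : Function.Injective (iota3 H)
  comul : ∀ h : H, ∃ t : H ⊗[R] H, ∀ z, iota2 H t z = (h : X → Ω) (z.1 + z.2)
  anti : ∀ h : H, (fun x => (h : X → Ω) (-x)) ∈ H
  counit : ∀ h : H, ∃ r : R, algebraMap R Ω r = (h : X → Ω) 0

namespace IsHopfLattice

variable (hH : IsHopfLattice H)

/-- comultiplication -/
noncomputable def comulHom : H →ₐ[R] H ⊗[R] H :=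
  ((AlgEquiv.ofInjective (iota2 H) hH.inj2).symm : (iota2 H).range →ₐ[R] H ⊗[R] H).comp
    (((pull R Ω (fun z : X × X => z.1 + z.2)).comp H.val).codRestrict (iota2 H).range
      (fun h => by
        obtain ⟨t, ht⟩ := hH.comul h
        exact ⟨t, funext ht⟩))

theorem iota2_comulHom (h : H) (z : X × X) :
    iota2 H (hH.comulHom h) z = (h : X → Ω) (z.1 + z.2) := by
  have h1 : iota2 H (hH.comulHom h) =
      ((pull R Ω (fun z : X × X => z.1 + z.2)).comp H.val) h := by
    unfold comulHom
    have := (AlgEquiv.ofInjective (iota2 H) hH.inj2).apply_symm_apply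
      ((((pull R Ω (fun z : X × X => z.1 + z.2)).comp H.val).codRestrict (iota2 H).range
      (fun h => by
        obtain ⟨t, ht⟩ := hH.comul h
        exact ⟨t, funext ht⟩)) h)
    exact congrArg Subtype.val this
  rw [h1]
  rfl

/-- counit -/
noncomputable def counitHom : H →ₐ[R] R :=
  ((AlgEquiv.ofInjective (Algebra.ofId R Ω) hH.inj).symm : (Algebra.ofId R Ω).range →ₐ[R] R).comp
    (((Pi.evalAlgHom R (fun _ : X => Ω) 0).comp H.val).codRestrict (Algebra.ofId R Ω).range
      (fun h => by
        obtain ⟨r, hr⟩ := hH.counit h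
        exact ⟨r, hr⟩))

theorem algebraMap_counitHom (h : H) :
    algebraMap R Ω (hH.counitHom h) = (h : X → Ω) 0 := by
  unfold counitHom
  have := (AlgEquiv.ofInjective (Algebra.ofId R Ω) hH.inj).apply_symm_apply
    ((((Pi.evalAlgHom R (fun _ : X => Ω) 0).comp H.val).codRestrict (Algebra.ofId R Ω).range
      (fun h => by
        obtain ⟨r, hr⟩ := hH.counit h
        exact ⟨r, hr⟩)) h)
  exact congrArg Subtype.val this

/-- antipode -/
def antiHom : H →ₗ[R] H where
  toFun h := ⟨fun x => (h : X → Ω) (-x), hH.anti h⟩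
  map_add' _ _ := rfl
  map_smul' _ _ := rfl

@[simp] theorem antiHom_apply (h : H) (x : X) : (hH.antiHom h : X → Ω) x = (h : X → Ω) (-x) := rfl

theorem iota3_map_id_comul (t : H ⊗[R] H) (z : X × (X × X)) :
    iota3 H (Algebra.TensorProduct.map (AlgHom.id R H) hH.comulHom t) z =
      iota2 H t (z.1, z.2.1 + z.2.2) := by
  have : (iota3 H).comp (Algebra.TensorProduct.map (AlgHom.id R H) hH.comulHom) =
      (pull R Ω (fun z : X × (X × X) => (z.1, z.2.1 + z.2.2))).comp (iota2 H) := by
    apply Algebra.TensorProduct.ext'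
    intro a c
    funext z
    simp [iota2_comulHom]
  exact congrFun (congrArg (fun f => f t) this) z

theorem iota3_assoc_tmul (s : H ⊗[R] H) (c : H) (z : X × (X × X)) :
    iota3 H (Algebra.TensorProduct.assoc R R R H H H (s ⊗ₜ[R] c)) z =
      iota2 H s (z.1, z.2.1) * (c : X → Ω) z.2.2 := by
  induction s using TensorProduct.induction_on with
  | zero => simp
  | tmul a b => simp [mul_assoc]
  | add s s' hs hs' =>
    rw [TensorProduct.add_tmul, map_add, map_add, Pi.add_apply, hs, hs', map_add, Pi.add_apply,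
      add_mul]

theorem iota3_assoc_map_comul_id (t : H ⊗[R] H) (z : X × (X × X)) :
    iota3 H (Algebra.TensorProduct.assoc R R R H H H
      (Algebra.TensorProduct.map hH.comulHom (AlgHom.id R H) t)) z =
      iota2 H t (z.1 + z.2.1, z.2.2) := by
  induction t using TensorProduct.induction_on with
  | zero => simp
  | tmul a c =>
    rw [Algebra.TensorProduct.map_tmul, iota3_assoc_tmul, iota2_comulHom]
    simp
  | add s s' hs hs' =>
    simp only [map_add, Pi.add_apply, hs, hs']

theorem coassoc : (Algebra.TensorProduct.assoc R R R H H H).toAlgHom.comp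
      ((Algebra.TensorProduct.map hH.comulHom (.id R H)).comp hH.comulHom)
      = (Algebra.TensorProduct.map (.id R H) hH.comulHom).comp hH.comulHom := by
  ext h
  apply hH.inj3
  funext z
  have h1 := hH.iota3_assoc_map_comul_id (hH.comulHom h) z
  have h2 := hH.iota3_map_id_comul (hH.comulHom h) z
  rw [iota2_comulHom] at h1 h2
  refine h1.trans (Eq.trans ?_ h2.symm)
  simp [add_assoc]

theorem lid_map_counit_id (t : H ⊗[R] H) (x : X) :
    ((Algebra.TensorProduct.lid R H
      (Algebra.TensorProduct.map hH.counitHom (AlgHom.id R H) t) : H) : X → Ω) x =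
      iota2 H t (0, x) := by
  induction t using TensorProduct.induction_on with
  | zero => simp
  | tmul a c =>
    rw [Algebra.TensorProduct.map_tmul, Algebra.TensorProduct.lid_tmul, iota2_tmul]
    change (hH.counitHom a • ((c : H) : X → Ω)) x = _
    rw [Pi.smul_apply, Algebra.smul_def, algebraMap_counitHom]
  | add s s' hs hs' =>
    simp only [map_add, Pi.add_apply, Subalgebra.coe_add, hs, hs']

theorem rid_map_id_counit (t : H ⊗[R] H) (x : X) :
    ((Algebra.TensorProduct.rid R R H
      (Algebra.TensorProduct.map (AlgHom.id R H) hH.counitHom t) : H) : X → Ω) x =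
      iota2 H t (x, 0) := by
  induction t using TensorProduct.induction_on with
  | zero => simp
  | tmul a c =>
    rw [Algebra.TensorProduct.map_tmul, Algebra.TensorProduct.rid_tmul, iota2_tmul]
    change (hH.counitHom c • ((a : H) : X → Ω)) x = _
    rw [Pi.smul_apply, Algebra.smul_def, algebraMap_counitHom, mul_comm]
  | add s s' hs hs' =>
    simp only [map_add, Pi.add_apply, Subalgebra.coe_add, hs, hs']

theorem rTensor_counit : (Algebra.TensorProduct.map hH.counitHom (.id R H)).comp hH.comulHom
      = (Algebra.TensorProduct.lid R H).symm := by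
  ext h
  apply (Algebra.TensorProduct.lid R H).injective
  apply Subtype.ext
  funext x
  have h1 := hH.lid_map_counit_id (hH.comulHom h) x
  rw [iota2_comulHom] at h1
  refine h1.trans ?_
  simp

theorem lTensor_counit : (Algebra.TensorProduct.map (.id R H) hH.counitHom).comp hH.comulHom
      = (Algebra.TensorProduct.rid R R H).symm := by
  ext h
  apply (Algebra.TensorProduct.rid R R H).injective
  apply Subtype.ext
  funext x
  have h1 := hH.rid_map_id_counit (hH.comulHom h) x
  rw [iota2_comulHom] at h1
  refine h1.trans ?_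
  simp

/-- the bialgebra structure -/
noncomputable abbrev bialgebra : Bialgebra R H :=
  Bialgebra.ofAlgHom hH.comulHom hH.counitHom hH.coassoc hH.rTensor_counit hH.lTensor_counit

theorem mul_rTensor_anti (t : H ⊗[R] H) (x : X) :
    ((LinearMap.mul' R H (hH.antiHom.rTensor H t) : H) : X → Ω) x = iota2 H t (-x, x) := by
  induction t using TensorProduct.induction_on with
  | zero => simp
  | tmul a c => simp
  | add s s' hs hs' =>
    simp only [map_add, Pi.add_apply, Subalgebra.coe_add, hs, hs']

theorem mul_lTensor_anti (t : H ⊗[R] H) (x : X) :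
    ((LinearMap.mul' R H (hH.antiHom.lTensor H t) : H) : X → Ω) x = iota2 H t (x, -x) := by
  induction t using TensorProduct.induction_on with
  | zero => simp
  | tmul a c => simp
  | add s s' hs hs' =>
    simp only [map_add, Pi.add_apply, Subalgebra.coe_add, hs, hs']

/-- the Hopf algebra structure -/
noncomputable abbrev hopfAlgebra : HopfAlgebra R H :=
  letI := hH.bialgebra
  { antipode := hH.antiHom
    mul_antipode_rTensor_comul := by
      ext h x
      have h1 := hH.mul_rTensor_anti (hH.comulHom h) x
      rw [iota2_comulHom] at h1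
      refine h1.trans ?_
      change _ = (algebraMap R H (hH.counitHom h) : X → Ω) x
      rw [Subalgebra.coe_algebraMap, Pi.algebraMap_apply, algebraMap_counitHom]
      simp
    mul_antipode_lTensor_comul := by
      ext h x
      have h1 := hH.mul_lTensor_anti (hH.comulHom h) x
      rw [iota2_comulHom] at h1
      refine h1.trans ?_
      change _ = (algebraMap R H (hH.counitHom h) : X → Ω) x
      rw [Subalgebra.coe_algebraMap, Pi.algebraMap_apply, algebraMap_counitHom]
      simp }

theorem iota2_comm (t : H ⊗[R] H) (z : X × X) :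
    iota2 H (TensorProduct.comm R H H t) z = iota2 H t (z.2, z.1) := by
  induction t using TensorProduct.induction_on with
  | zero => simp
  | tmul a c => simp [mul_comm]
  | add s s' hs hs' =>
    simp only [map_add, Pi.add_apply, hs, hs']

theorem isCocomm : letI := hH.bialgebra; Coalgebra.IsCocomm R H :=
  letI := hH.bialgebra
  { comm_comp_comul := by
      ext h
      apply hH.inj2
      funext z
      have h1 := iota2_comm (hH.comulHom h) z
      rw [iota2_comulHom] at h1
      refine h1.trans ?_
      change _ = iota2 H (hH.comulHom h) z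
      rw [iota2_comulHom, add_comm] }

/-- evaluation at a point -/
def evHom (H : Subalgebra R (X → Ω)) (x : X) : H →ₐ[R] Ω :=
  (Pi.evalAlgHom R (fun _ : X => Ω) x).comp H.val

@[simp] theorem evHom_apply (x : X) (h : H) : evHom H x h = (h : X → Ω) x := rfl

theorem lift_evHom (x y : X) (t : H ⊗[R] H) :
    Algebra.TensorProduct.lift (evHom H x) (evHom H y) (fun _ _ => Commute.all _ _) t =
      iota2 H t (x, y) := by
  induction t using TensorProduct.induction_on with
  | zero => simp
  | tmul a c => simp
  | add s s' hs hs' =>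
    simp only [map_add, Pi.add_apply, hs, hs']

theorem evHom_injective {ι : Type*} (B : Module.Basis ι R H)
    (hsp : ⊤ ≤ Submodule.span Ω (Set.range fun i => ((B i : H) : X → Ω))) :
    Function.Injective (evHom H) := by
  classical
  intro x y hxy
  let S : Submodule Ω (X → Ω) :=
    { carrier := {φ | φ x = φ y}
      add_mem' := fun {a b} ha hb => by
        simp only [Set.mem_ofPred_eq, Pi.add_apply] at ha hb ⊢
        rw [ha, hb]
      zero_mem' := rfl
      smul_mem' := fun c a ha => by
        simp only [Set.mem_ofPred_eq, Pi.smul_apply] at ha ⊢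
        rw [ha] }
  have h1 : Submodule.span Ω (Set.range fun i => ((B i : H) : X → Ω)) ≤ S := by
    refine Submodule.span_le.mpr ?_
    rintro _ ⟨i, rfl⟩
    exact congrArg (fun f => f (B i)) hxy
  have h2 : (Pi.single x (1 : Ω) : X → Ω) ∈ S := h1 (hsp trivial)
  have h3 : (Pi.single x (1 : Ω) : X → Ω) x = (Pi.single x (1 : Ω) : X → Ω) y := h2
  by_contra hne
  rw [Pi.single_eq_same, Pi.single_eq_of_ne (Ne.symm hne)] at h3
  exact one_ne_zero h3

theorem evHom_surjective [Finite X] {ι : Type*} (B : Module.Basis ι R H)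
    (hli : LinearIndependent Ω (fun i => ((B i : H) : X → Ω)))
    (hsp : ⊤ ≤ Submodule.span Ω (Set.range fun i => ((B i : H) : X → Ω))) :
    Function.Surjective (evHom H) := by
  classical
  cases nonempty_fintype X
  intro f
  let BΩ : Module.Basis ι Ω (X → Ω) := Module.Basis.mk hli hsp
  have hBΩ : ∀ i, BΩ i = ((B i : H) : X → Ω) := fun i => Module.Basis.mk_apply hli hsp i
  let F : (X → Ω) →ₗ[Ω] Ω := BΩ.constr Ω (fun i => f (B i))
  have hFB : ∀ i, F ((B i : H) : X → Ω) = f (B i) := by
    intro i
    rw [← hBΩ, Module.Basis.constr_basis]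
  have hFH : ∀ h : H, F (h : X → Ω) = f h := by
    have : (F.restrictScalars R).comp H.val.toLinearMap = f.toLinearMap := by
      refine B.ext fun i => ?_
      exact hFB i
    intro h
    exact congrArg (fun g => g h) this
  have hmul : ∀ φ ψ : X → Ω, F (φ * ψ) = F φ * F ψ := by
    have : (LinearMap.mul Ω (X → Ω)).compr₂ F = (LinearMap.mul Ω Ω).compl₁₂ F F := by
      refine LinearMap.ext_basis BΩ BΩ fun i j => ?_
      simp only [LinearMap.compr₂_apply, LinearMap.mul_apply', LinearMap.compl₁₂_apply, hBΩ]
      have h1 : ((B i : H) : X → Ω) * ((B j : H) : X → Ω) = ((B i * B j : H) : X → Ω) := rfl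
      rw [h1, hFH, hFB, hFB, map_mul]
    intro φ ψ
    exact congrArg (fun g => g φ ψ) this
  have hone : F 1 = 1 := by
    have := hFH 1
    rwa [map_one] at this
  have hex : ∃ x : X, F (Pi.single x 1) ≠ 0 := by
    by_contra hcon
    push Not at hcon
    have h1 : (1 : X → Ω) = ∑ x : X, Pi.single x 1 := by
      rw [Finset.univ_sum_single]
      rfl
    rw [h1, map_sum, Finset.sum_eq_zero fun x _ => hcon x] at hone
    exact zero_ne_one hone
  obtain ⟨x, hx⟩ := hex
  refine ⟨x, ?_⟩
  ext h
  have h1 : (h : X → Ω) * Pi.single x 1 = ((h : X → Ω) x) • (Pi.single x 1 : X → Ω) := by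
    funext y
    by_cases hy : y = x
    · subst hy; simp
    · simp [Pi.single_eq_of_ne hy]
  have h2 := hmul (h : X → Ω) (Pi.single x 1)
  rw [h1, map_smul, smul_eq_mul] at h2
  have h3 := mul_right_cancel₀ hx h2
  rw [evHom_apply, h3, hFH]

end IsHopfLattice

/-- The conclusion, for a basis of `H`. -/
theorem IsHopfLattice.exists_equiv [Finite X] (hH : IsHopfLattice H) {ι : Type*}
    (B : Module.Basis ι R H)
    (hli : LinearIndependent Ω (fun i => ((B i : H) : X → Ω)))
    (hsp : ⊤ ≤ Submodule.span Ω (Set.range fun i => ((B i : H) : X → Ω))) :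
    letI := hH.hopfAlgebra
    ∃ e : WithConv (H →ₐ[R] Ω) ≃ X, (∀ f g, e (f * g) = e f + e g) ∧
      ∀ (f : WithConv (H →ₐ[R] Ω)) (h : H), f h = (h : X → Ω) (e f) := by
  let _ := hH.hopfAlgebra
  let e₀ : X ≃ WithConv (H →ₐ[R] Ω) :=
    (Equiv.ofBijective (IsHopfLattice.evHom H)
      ⟨IsHopfLattice.evHom_injective B hsp, IsHopfLattice.evHom_surjective B hli hsp⟩).trans
      (WithConv.equiv _).symm
  have he₀ : ∀ (x : X) (h : H), e₀ x h = (h : X → Ω) x := fun x h => rfl
  have hspec : ∀ (f : WithConv (H →ₐ[R] Ω)) (h : H), f h = (h : X → Ω) (e₀.symm f) := by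
    intro f h
    conv_lhs => rw [← e₀.apply_symm_apply f]
    exact he₀ _ h
  refine ⟨e₀.symm, ?_, hspec⟩
  intro f g
  rw [Equiv.symm_apply_eq]
  apply WithConv.ext
  ext h
  change (f * g) h = e₀ (e₀.symm f + e₀.symm g) h
  rw [he₀, AlgHom.convMul_apply]
  have hf : f.ofConv = IsHopfLattice.evHom H (e₀.symm f) := by
    ext h'
    exact hspec f h'
  have hg : g.ofConv = IsHopfLattice.evHom H (e₀.symm g) := by
    ext h'
    exact hspec g h'
  have h1 := IsHopfLattice.lift_evHom (H := H) (e₀.symm f) (e₀.symm g) (hH.comulHom h)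
  rw [hH.iota2_comulHom] at h1
  rw [← h1]
  congr 1
  · simp only [hf, hg]

end Main

/-- **[A-HOPF]** -/
theorem exists_hopf_of_functions {R Ω X : Type} [CommRing R] [Field Ω] [Algebra R Ω]
    (hinj : Function.Injective (algebraMap R Ω)) [AddCommGroup X] [Finite X]
    (H : Subalgebra R (X → Ω)) {n : ℕ} (b : Fin n → (X → Ω)) (hbH : ∀ i, b i ∈ H)
    (hspan : ∀ h ∈ H, ∃ c : Fin n → R, h = ∑ i, c i • b i)
    (hli : LinearIndependent Ω b) (htop : Submodule.span Ω (Set.range b) = ⊤)
    (hcomul : ∀ h ∈ H, ∃ (m : ℕ) (u v : Fin m → (X → Ω)), (∀ k, u k ∈ H) ∧ (∀ k, v k ∈ H) ∧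
      ∀ x y, h (x + y) = ∑ k, u k x * v k y)
    (hanti : ∀ h ∈ H, (fun x => h (-x)) ∈ H)
    (hcounit : ∀ h ∈ H, ∃ r : R, algebraMap R Ω r = h 0) :
    ∃ (H' : Type) (_ : CommRing H') (_ : HopfAlgebra R H'), Module.Finite R H' ∧
      Module.Flat R H' ∧ Coalgebra.IsCocomm R H' ∧
      ∃ e : WithConv (H' →ₐ[R] Ω) ≃ X, (∀ f g, e (f * g) = e f + e g) ∧
        ∀ (σ : Ω → Ω) (τ : X → X), (∀ h ∈ H, ∀ x, h (τ x) = σ (h x)) →
          ∀ f g : WithConv (H' →ₐ[R] Ω), (∀ h : H', g h = σ (f h)) → e g = τ (e f) := by
  classical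
  -- the basis of `H`
  let b' : Fin n → H := fun i => ⟨b i, hbH i⟩
  have hliR : LinearIndependent R b' := by
    have h1 : LinearIndependent R b :=
      hli.restrict_scalars (by simpa [Algebra.smul_def] using hinj)
    exact LinearIndependent.of_comp H.val.toLinearMap h1
  have hspR : ⊤ ≤ Submodule.span R (Set.range b') := by
    rintro ⟨h, hh⟩ -
    obtain ⟨c, hc⟩ := hspan h hh
    have : (⟨h, hh⟩ : H) = ∑ i, c i • b' i := by
      apply Subtype.ext
      change h = _
      rw [hc]
      simp [b']
    rw [this]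
    exact Submodule.sum_mem _ fun i _ => Submodule.smul_mem _ _ (Submodule.subset_span ⟨i, rfl⟩)
  let B : Module.Basis (Fin n) R H := Module.Basis.mk hliR hspR
  have hB : ∀ i, ((B i : H) : X → Ω) = b i := fun i => by
    rw [Module.Basis.mk_apply]
  have hfun : (fun i => ((B i : H) : X → Ω)) = b := funext hB
  have hli' : LinearIndependent Ω (fun i => ((B i : H) : X → Ω)) := by rw [hfun]; exact hli
  have hsp' : ⊤ ≤ Submodule.span Ω (Set.range fun i => ((B i : H) : X → Ω)) := by
    rw [hfun, htop]
  have hH : IsHopfLattice H :=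
    { inj := hinj
      inj2 := iota2_injective B hinj hli'
      inj3 := iota3_injective B hinj hli'
      comul := by
        rintro ⟨h, hh⟩
        obtain ⟨m, u, v, hu, hv, huv⟩ := hcomul h hh
        refine ⟨∑ k, (⟨u k, hu k⟩ : H) ⊗ₜ[R] (⟨v k, hv k⟩ : H), fun z => ?_⟩
        rw [map_sum, Finset.sum_apply]
        simp only [iota2_tmul]
        exact (huv z.1 z.2).symm
      anti := fun h => hanti h h.2
      counit := fun h => hcounit h h.2 }
  have hfree : Module.Free R H := Module.Free.of_basis B
  obtain ⟨e, he1, he2⟩ := hH.exists_equiv B hli' hsp'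
  refine ⟨H, inferInstance, hH.hopfAlgebra, Module.Finite.of_basis B, inferInstance,
    hH.isCocomm, e, he1, ?_⟩
  intro σ τ hστ f g hfg
  have h1 : ∀ h : H, g h = (h : X → Ω) (τ (e f)) := by
    intro h
    rw [hfg h, he2 f h, hστ h h.2]
  have h2 : g = e.symm (τ (e f)) := by
    apply WithConv.ext
    ext h
    have h3 := he2 (e.symm (τ (e f))) h
    rw [Equiv.apply_symm_apply] at h3
    exact (h1 h).trans h3.symm
  rw [h2, Equiv.apply_symm_apply]

end Fermat.Agent.S19.HopfOrder
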